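import Fermat.Agent.S55.PT.SpecT

/-!
# S55 / layer D, leaf D-T3: CAP for all modules (helper837)

`capDev : CapDevSpec p S`, i.e. `GlobalNormalCofinalSpec → CapSpec p S → CapAllSpec p S`.

Proof.  `twTriv χ M ≅ μ^d`: with a basis `b` of `M`, coordinates `λ_i = b.coord i` and
`ι_i = (· • b i)`, one has
`augTw_U = Σ_i (augTw_V ∘ Ind_V ι_i) ∘ (indLE ∘ Ind_U λ_i)`
for `U ≤ V`, `V` acting trivially on `M` and on `χ`.  Each `(Ind_U λ_i)_*` maps `Ш²` to `Ш²`, and
`indLE_*` kills `Ш²(Ind_U μ)` by CAP.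
-/

set_option autoImplicit false

noncomputable section

namespace Fermat.Agent.S55.PT.H837

open groupCohomology ExtCitation Fermat.Agent.S55.PT

variable {k : Type} [Field k] {G : Type} [Group G]

/-- every linear map is equivariant between twisted trivial modules -/
lemma twTriv_isEquivariant (χ : G →* kˣ) {W W' : Type} [AddCommGroup W] [Module k W]
    [AddCommGroup W'] [Module k W'] (φ : W →ₗ[k] W') :
    IsEquivariant (A := twTriv χ W) (B := twTriv χ W') φ := by
  intro g w
  rw [twTriv_ρ_apply, twTriv_ρ_apply]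
  exact map_smul φ _ w

/-- if `φ = Σ_i ψ_i ∘ θ_i` and all `(θ_i)_* x = 0` then `φ_* x = 0` -/
lemma pushH2_eq_zero_of_eq_sum_comp (L : LevelSys G) {A B C : Rep.{0, 0, 0} k G} {I : Type}
    (s : Finset I) (θ : I → (A →ₗ[k] B)) (ψ : I → (B →ₗ[k] C))
    (hθ : ∀ i, IsEquivariant (θ i)) (hψ : ∀ i, IsEquivariant (ψ i))
    (φ : A →ₗ[k] C) (hφ : IsEquivariant φ) (h : φ = ∑ i ∈ s, ψ i ∘ₗ θ i)
    (x : L.H2 A) (hx : ∀ i ∈ s, pushH2 (θ i) (hθ i) L x = 0) :
    pushH2 φ hφ L x = 0 := by
  obtain ⟨c, rfl⟩ := L.H2π_surjective A x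
  have key : pushZ2 φ hφ L c = ∑ i ∈ s, pushZ2 (ψ i) (hψ i) L (pushZ2 (θ i) (hθ i) L c) := by
    apply Subtype.ext
    rw [coe_pushZ2, Submodule.coe_sum]
    funext y
    rw [Finset.sum_apply, Function.comp_apply, h, LinearMap.sum_apply]
    rfl
  rw [pushH2_mk, key, map_sum]
  refine Finset.sum_eq_zero fun i hi => ?_
  have h0 := hx i hi
  rw [pushH2_mk] at h0
  rw [← pushH2_mk, h0, map_zero]

section Generic

variable {ι : Type} [Fintype ι] [DecidableEq ι] {Gv : ι → Type} [∀ v, Group (Gv v)]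
variable {L : LevelSys G} {Lv : ∀ v, LevelSys (Gv v)} {r : ∀ v, Gv v →* G}
variable (hr : ∀ v, IsLevelCompatible (r v) L (Lv v))

/-- the coordinate decomposition of the twisted augmentation -/
lemma augTw_eq_sum (χ : G →* kˣ) (M : Rep.{0, 0, 0} k G) {U V : Subgroup G} (hUV : U ≤ V)
    (hχ : ∀ u ∈ V, χ u = 1) (hM : ∀ u ∈ V, M.ρ u = 1)
    {d : Type} [Fintype d] (b : Module.Basis d k M) :
    augTw χ U M = ∑ i : d,
      ((augTw χ V M) ∘ₗ (indMap V (M := ofChar χ) (N := twTriv χ M)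
          (LinearMap.toSpanSingleton k M (b i)))) ∘ₗ
        ((indLE (ofChar χ) hUV) ∘ₗ (indMap U (M := twTriv χ M) (N := ofChar χ) (b.coord i))) := by
  apply Finsupp.lhom_ext
  intro x m
  induction x using QuotientGroup.induction_on with
  | H g =>
    rw [LinearMap.sum_apply, augTw_single,
      twAct_mk χ U M (fun u hu => hχ u (hUV hu)) (fun u hu => hM u (hUV hu))]
    have hterm : ∀ i : d,
        (((augTw χ V M) ∘ₗ (indMap V (M := ofChar χ) (N := twTriv χ M)
          (LinearMap.toSpanSingleton k M (b i)))) ∘ₗ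
        ((indLE (ofChar χ) hUV) ∘ₗ (indMap U (M := twTriv χ M) (N := ofChar χ) (b.coord i))))
          (Finsupp.single (g : G ⧸ U) m) =
        ((((χ g)⁻¹ : kˣ) : k) • M.ρ g) ((b.coord i m) • b i) := by
      intro i
      rw [LinearMap.comp_apply, LinearMap.comp_apply, LinearMap.comp_apply, indMap_single,
        indLE_single, indMap_single, augTw_single]
      have h1 : Subgroup.quotientMapOfLE hUV (g : G ⧸ U) = (g : G ⧸ V) := rfl
      rw [h1, twAct_mk χ V M hχ hM]
      rfl
    rw [Finset.sum_congr rfl (fun i _ => hterm i), ← map_sum]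
    congr 1
    exact (b.sum_repr m).symm

include hr in
/-- **CAP dévissage, generic form.** -/
theorem pushH2_augTw_eq_zero (χ : G →* kˣ) (M : Rep.{0, 0, 0} k G) [FiniteDimensional k M]
    {U V : Subgroup G} (hUV : U ≤ V)
    (hχ : ∀ u ∈ V, χ u = 1) (hM : ∀ u ∈ V, M.ρ u = 1)
    (hcap : ∀ x ∈ Sha2 hr (indRep U (ofChar χ)),
      pushH2 (A := indRep U (ofChar χ)) (B := indRep V (ofChar χ)) (indLE (ofChar χ) hUV)
        (indLE_equivariant U (ofChar χ) hUV) L x = 0)
    (x : L.H2 (indRep U (twTriv χ M))) (hx : x ∈ Sha2 hr (indRep U (twTriv χ M))) :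
    pushH2 (A := indRep U (twTriv χ M)) (B := M) (augTw χ U M)
      (augTw_equivariant χ U M (fun u hu => hχ u (hUV hu)) (fun u hu => hM u (hUV hu)))
      L x = 0 := by
  classical
  let b := Module.finBasis k M
  -- equivariance of the pieces
  have hlam : ∀ i, IsEquivariant (A := indRep U (twTriv χ M)) (B := indRep U (ofChar χ))
      (indMap U (M := twTriv χ M) (N := ofChar χ) (b.coord i)) := fun i =>
    indMap_equivariant U (M := twTriv χ M) (N := ofChar χ) (b.coord i)
      (twTriv_isEquivariant χ (b.coord i))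
  have hle : IsEquivariant (A := indRep U (ofChar χ)) (B := indRep V (ofChar χ))
      (indLE (ofChar χ) hUV) := indLE_equivariant U (ofChar χ) hUV
  have hθ : ∀ i, IsEquivariant (A := indRep U (twTriv χ M)) (B := indRep V (ofChar χ))
      ((indLE (ofChar χ) hUV) ∘ₗ (indMap U (M := twTriv χ M) (N := ofChar χ) (b.coord i))) :=
    fun i => isEquivariant_comp (hlam i) hle
  have hiota : ∀ i, IsEquivariant (A := indRep V (ofChar χ)) (B := indRep V (twTriv χ M))
      (indMap V (M := ofChar χ) (N := twTriv χ M) (LinearMap.toSpanSingleton k M (b i))) :=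
    fun i => indMap_equivariant V (M := ofChar χ) (N := twTriv χ M)
      (LinearMap.toSpanSingleton k M (b i))
      (twTriv_isEquivariant χ (W := k) (W' := M) (LinearMap.toSpanSingleton k M (b i)))
  have haugV : IsEquivariant (A := indRep V (twTriv χ M)) (B := M) (augTw χ V M) :=
    augTw_equivariant χ V M hχ hM
  have hψ : ∀ i, IsEquivariant (A := indRep V (ofChar χ)) (B := M)
      ((augTw χ V M) ∘ₗ (indMap V (M := ofChar χ) (N := twTriv χ M)
          (LinearMap.toSpanSingleton k M (b i)))) :=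
    fun i => isEquivariant_comp (hiota i) haugV
  refine pushH2_eq_zero_of_eq_sum_comp L (A := indRep U (twTriv χ M))
    (B := indRep V (ofChar χ)) (C := M) Finset.univ _ _ hθ hψ (augTw χ U M) _
    (augTw_eq_sum χ M hUV hχ hM b) x (fun i _ => ?_)
  rw [pushH2_comp L (hlam i) hle (hθ i) x]
  refine hcap _ ?_
  exact (pushSha2 hr (A := indRep U (twTriv χ M)) (B := indRep U (ofChar χ))
    (indMap U (M := twTriv χ M) (N := ofChar χ) (b.coord i)) (hlam i) ⟨x, hx⟩).2

end Generic

/-- **Leaf D-T3.**  CAP for `Ind_U μ` implies CAP for all modules. -/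
theorem capDev (p : ℕ) [Fact p.Prime] (S : Finset Nat.Primes) : CapDevSpec p S := by
  intro hNC hCap M hMfin V hV hχ hMV
  obtain ⟨V', hV', hV'V, hV'n⟩ := hNC S V hV
  have hmu : ∀ s ∈ V', (mu p).ρ s = 1 := by
    intro s hs
    apply LinearMap.ext
    intro c
    rw [ofChar_ρ_apply, hχ s (hV'V hs)]
    simp
  obtain ⟨U, hUV', hU, hUn, hcap⟩ := hCap V' hV' hV'n hmu
  refine ⟨U, hUV'.trans hV'V, hU, hUn, fun x hx => ?_⟩
  have : FiniteDimensional (ZMod p) M := hMfin
  exact pushH2_augTw_eq_zero (hrl S) (cycloChar p) M hUV'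
    (fun u hu => hχ u (hV'V hu)) (fun u hu => hMV u (hV'V hu)) hcap x hx

end Fermat.Agent.S55.PT.H837

end
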